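import Mathlib

/-!
# S16 / LAT: the quaternary lattice of level `p` (owner: helper17)

For every odd prime `p` there are integers `t > 0`, `a`, `m` with `q m = a² + p`, `q = 4 t - 1`
(`exists_qam`: `p ≡ 3 mod 4`: `(q, a, m) = (p, 0, 1)`; `p ≡ 1 mod 4`: Dirichlet's theorem gives a
prime `q ≡ 3 mod 4` which is a non-residue mod `p`; by quadratic reciprocity `-p` is a square
mod `q`).  With `s = 2 t = (q + 1) / 2` the matrices

`A = latA t a m = [[2, 1, 0, a], [1, s, -a, 0], [0, -a, 2m, m], [a, 0, m, m s]]`,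
`B = latB t a m = [[m s, -m, 0, -a], [-m, 2m, a, 0], [0, a, s, -1], [-a, 0, -1, 2]]`

are symmetric with even diagonals, `A * B = B * A = p`, `det A = det B = p²`, and both are
positive definite:
`2 q xᵀAx = q (2x₁ + x₂ + a x₄)² + (q x₂ - a (2x₃ + x₄))² + p (2x₃ + x₄)² + p q x₄²`, and
`xᵀBx` is the same form evaluated at `(x₄, -x₃, x₂, -x₁)`.

Main statement: `lat_exists`.
-/

set_option autoImplicit false

namespace Fermat.Agent.S16

open Matrix

/-- For an odd prime `p` there is a prime `q ≡ 3 mod 4` that is a non-residue mod `p`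
(Dirichlet's theorem in the class `3 mod 4`, `r mod p` with `r` a non-residue). -/
theorem exists_prime_three_mod_four_nonsquare (p : ℕ) [hp : Fact p.Prime] (hp2 : p ≠ 2) :
    ∃ q : ℕ, q.Prime ∧ q % 4 = 3 ∧ ¬ IsSquare ((q : ℕ) : ZMod p) := by
  have hodd : p % 2 = 1 := hp.out.eq_two_or_odd.resolve_left hp2
  have hcop : Nat.Coprime 4 p := by
    have h2 : Nat.Coprime 2 p := (Nat.coprime_primes Nat.prime_two hp.out).mpr (Ne.symm hp2)
    have : Nat.Coprime (2 ^ 2) p := Nat.Coprime.pow_left 2 h2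
    simpa using this
  obtain ⟨r, hr⟩ := FiniteField.exists_nonsquare (F := ZMod p)
    (by rw [ZMod.ringChar_zmod_n]; exact hp2)
  have hr0 : r ≠ 0 := fun h => hr (h ▸ IsSquare.zero)
  let e := ZMod.chineseRemainder hcop
  have hu : IsUnit (e.symm ((3 : ZMod 4), r)) := by
    have h30 : IsUnit (3 : ZMod 4) := by decide
    have h3 : IsUnit ((3 : ZMod 4), r) := Prod.isUnit_iff.mpr ⟨h30, hr0.isUnit⟩
    exact h3.map e.symm
  have : NeZero (4 * p) := ⟨by have := hp.out.pos; omega⟩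
  obtain ⟨q, -, hq, hqu⟩ := Nat.forall_exists_prime_gt_and_eq_mod hu 0
  have h1 : e ((q : ℕ) : ZMod (4 * p)) = ((3 : ZMod 4), r) := by
    rw [hqu]; exact e.apply_symm_apply _
  rw [map_natCast] at h1
  have h4 : ((q : ℕ) : ZMod 4) = 3 := by simpa using congrArg Prod.fst h1
  have hp' : ((q : ℕ) : ZMod p) = r := by simpa using congrArg Prod.snd h1
  refine ⟨q, hq, ?_, hp' ▸ hr⟩
  have h5 := congrArg ZMod.val h4
  rw [ZMod.val_natCast] at h5
  exact h5

/-- (LAT, arithmetic part) For every odd prime `p` there are integers `t > 0`, `a`, `m` with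
`q * m = a ^ 2 + p` for `q = 4 t - 1` (so `q > 0`, `q ≡ 3 mod 4`). -/
theorem exists_qam (p : ℕ) (hp : p.Prime) (hp2 : p ≠ 2) :
    ∃ t a m : ℤ, 0 < t ∧ (4 * t - 1) * m = a ^ 2 + (p : ℤ) := by
  have hodd : p % 2 = 1 := hp.eq_two_or_odd.resolve_left hp2
  have h4 : p % 4 = 1 ∨ p % 4 = 3 := by omega
  rcases h4 with h1 | h3
  · have := Fact.mk hp
    obtain ⟨q, hq, hq3, hns⟩ := exists_prime_three_mod_four_nonsquare p hp2
    have := Fact.mk hq
    have hq2 : q ≠ 2 := by rintro rfl; omega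
    have hns' : ¬ IsSquare ((p : ℕ) : ZMod q) := fun h =>
      hns ((ZMod.exists_sq_eq_prime_iff_of_mod_four_eq_one h1 hq2).mpr h)
    have hneg : ¬ IsSquare (-1 : ZMod q) := fun h => (ZMod.exists_sq_eq_neg_one_iff.mp h) hq3
    have hp0 : ((p : ℕ) : ZMod q) ≠ 0 := fun h => hns' (h ▸ IsSquare.zero)
    have hsq : IsSquare (-((p : ℕ) : ZMod q)) := by
      have h1 : quadraticChar (ZMod q) (-1 * ((p : ℕ) : ZMod q)) = 1 := by
        rw [map_mul, quadraticChar_neg_one_iff_not_isSquare.mpr hneg,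
          quadraticChar_neg_one_iff_not_isSquare.mpr hns']
        norm_num
      rw [neg_one_mul] at h1
      exact (quadraticChar_one_iff_isSquare (neg_ne_zero.mpr hp0)).mp h1
    obtain ⟨b, hb⟩ := hsq
    have hdvd : (q : ℤ) ∣ (b.val : ℤ) ^ 2 + (p : ℤ) := by
      refine (ZMod.intCast_zmod_eq_zero_iff_dvd _ q).mp ?_
      push_cast
      rw [ZMod.natCast_zmod_val b, pow_two, ← hb]
      ring
    obtain ⟨m, hm⟩ := hdvd
    obtain ⟨k, hk⟩ : ∃ k, q = 4 * k + 3 := ⟨q / 4, by omega⟩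
    refine ⟨(k : ℤ) + 1, (b.val : ℤ), m, by positivity, ?_⟩
    rw [hm, hk]
    push_cast
    ring
  · obtain ⟨k, hk⟩ : ∃ k, p = 4 * k + 3 := ⟨p / 4, by omega⟩
    refine ⟨(k : ℤ) + 1, 0, 1, by positivity, ?_⟩
    rw [hk]
    push_cast
    ring

/-- The Gram matrix `A` of the quaternary lattice (`s = 2 t`, `q = 4 t - 1`). -/
def latA (t a m : ℤ) : Matrix (Fin 4) (Fin 4) ℤ :=
  !![2, 1, 0, a; 1, 2 * t, -a, 0; 0, -a, 2 * m, m; a, 0, m, 2 * t * m]

/-- The matrix `A♯ = p A⁻¹`. -/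
def latB (t a m : ℤ) : Matrix (Fin 4) (Fin 4) ℤ :=
  !![2 * t * m, -m, 0, -a; -m, 2 * m, a, 0; 0, a, 2 * t, -1; -a, 0, -1, 2]

theorem latA_isSymm (t a m : ℤ) : (latA t a m).IsSymm := by
  ext i j
  fin_cases i <;> fin_cases j <;> rfl

theorem latB_isSymm (t a m : ℤ) : (latB t a m).IsSymm := by
  ext i j
  fin_cases i <;> fin_cases j <;> rfl

theorem latA_even (t a m : ℤ) (i : Fin 4) : Even (latA t a m i i) := by
  fin_cases i
  · exact ⟨1, rfl⟩
  · exact ⟨t, by simp [latA]; ring⟩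
  · exact ⟨m, by simp [latA]; ring⟩
  · exact ⟨t * m, by simp [latA]; ring⟩

theorem latB_even (t a m : ℤ) (i : Fin 4) : Even (latB t a m i i) := by
  fin_cases i
  · exact ⟨t * m, by simp [latB]; ring⟩
  · exact ⟨m, by simp [latB]; ring⟩
  · exact ⟨t, by simp [latB]; ring⟩
  · exact ⟨1, rfl⟩

theorem latA_mul_latB (t a m p : ℤ) (h : (4 * t - 1) * m = a ^ 2 + p) :
    latA t a m * latB t a m = p • (1 : Matrix (Fin 4) (Fin 4) ℤ) := by
  ext i j
  fin_cases i <;> fin_cases j <;>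
    simp [latA, latB, Matrix.mul_apply, Fin.sum_univ_four] <;>
    first | linear_combination h | ring1

theorem latB_mul_latA (t a m p : ℤ) (h : (4 * t - 1) * m = a ^ 2 + p) :
    latB t a m * latA t a m = p • (1 : Matrix (Fin 4) (Fin 4) ℤ) := by
  ext i j
  fin_cases i <;> fin_cases j <;>
    simp [latA, latB, Matrix.mul_apply, Fin.sum_univ_four] <;>
    first | linear_combination h | ring1

/-- Determinant of a `4 × 4` matrix given by its entries (Laplace expansion along the first row). -/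
theorem det_fin_four_of {R : Type*} [CommRing R]
    (a11 a12 a13 a14 a21 a22 a23 a24 a31 a32 a33 a34 a41 a42 a43 a44 : R) :
    Matrix.det !![a11, a12, a13, a14; a21, a22, a23, a24; a31, a32, a33, a34; a41, a42, a43, a44] =
      a11 * (a22 * a33 * a44 - a22 * a34 * a43 - a23 * a32 * a44 + a23 * a34 * a42
        + a24 * a32 * a43 - a24 * a33 * a42)
      - a12 * (a21 * a33 * a44 - a21 * a34 * a43 - a23 * a31 * a44 + a23 * a34 * a41
        + a24 * a31 * a43 - a24 * a33 * a41)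
      + a13 * (a21 * a32 * a44 - a21 * a34 * a42 - a22 * a31 * a44 + a22 * a34 * a41
        + a24 * a31 * a42 - a24 * a32 * a41)
      - a14 * (a21 * a32 * a43 - a21 * a33 * a42 - a22 * a31 * a43 + a22 * a33 * a41
        + a23 * a31 * a42 - a23 * a32 * a41) := by
  rw [Matrix.det_succ_row_zero]
  simp [Fin.sum_univ_succ, Matrix.det_fin_three, Fin.succAbove, Matrix.submatrix]
  ring

theorem latA_det (t a m p : ℤ) (h : (4 * t - 1) * m = a ^ 2 + p) : (latA t a m).det = p ^ 2 := by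
  rw [latA, det_fin_four_of]
  linear_combination ((4 * t - 1) * m - a ^ 2 + p) * h

theorem latB_det (t a m p : ℤ) (h : (4 * t - 1) * m = a ^ 2 + p) : (latB t a m).det = p ^ 2 := by
  rw [latB, det_fin_four_of]
  linear_combination ((4 * t - 1) * m - a ^ 2 + p) * h

/-- A sum of four squares with positive weights vanishes only at the origin. -/
theorem sos_zero (q p a x₁ x₂ x₃ x₄ S : ℝ) (hq : 0 < q) (hp : 0 < p)
    (hS : 2 * q * S = q * (2 * x₁ + x₂ + a * x₄) ^ 2 + (q * x₂ - a * (2 * x₃ + x₄)) ^ 2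
      + p * (2 * x₃ + x₄) ^ 2 + p * q * x₄ ^ 2) (hS0 : S ≤ 0) :
    x₁ = 0 ∧ x₂ = 0 ∧ x₃ = 0 ∧ x₄ = 0 := by
  have h1 : 0 ≤ q * (2 * x₁ + x₂ + a * x₄) ^ 2 := by positivity
  have h2 : 0 ≤ (q * x₂ - a * (2 * x₃ + x₄)) ^ 2 := by positivity
  have h3 : 0 ≤ p * (2 * x₃ + x₄) ^ 2 := by positivity
  have h4 : 0 ≤ p * q * x₄ ^ 2 := by positivity
  have hle : 2 * q * S ≤ 0 := mul_nonpos_of_nonneg_of_nonpos (by positivity) hS0
  have e4 : p * q * x₄ ^ 2 = 0 := by linarith
  have e3 : p * (2 * x₃ + x₄) ^ 2 = 0 := by linarith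
  have e2 : (q * x₂ - a * (2 * x₃ + x₄)) ^ 2 = 0 := by linarith
  have e1 : q * (2 * x₁ + x₂ + a * x₄) ^ 2 = 0 := by linarith
  have x4 : x₄ = 0 := by
    rcases mul_eq_zero.mp e4 with h | h
    · exact absurd h (mul_pos hp hq).ne'
    · exact pow_eq_zero_iff (two_ne_zero) |>.mp h
  have x3 : x₃ = 0 := by
    rcases mul_eq_zero.mp e3 with h | h
    · exact absurd h hp.ne'
    · have := pow_eq_zero_iff (two_ne_zero) |>.mp h
      rw [x4] at this
      linarith
  have x2 : x₂ = 0 := by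
    have := pow_eq_zero_iff (two_ne_zero) |>.mp e2
    rw [x3, x4] at this
    have h' : q * x₂ = 0 := by linarith
    rcases mul_eq_zero.mp h' with h | h
    · exact absurd h hq.ne'
    · exact h
  have x1 : x₁ = 0 := by
    rcases mul_eq_zero.mp e1 with h | h
    · exact absurd h hq.ne'
    · have := pow_eq_zero_iff (two_ne_zero) |>.mp h
      rw [x2, x4] at this
      linarith
  exact ⟨x1, x2, x3, x4⟩

theorem latA_posDef (t a m p : ℤ) (h : (4 * t - 1) * m = a ^ 2 + p) (ht : 0 < t) (hp : 0 < p) :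
    ((latA t a m).map (Int.cast : ℤ → ℝ)).PosDef := by
  have hR : (4 * (t : ℝ) - 1) * (m : ℝ) = (a : ℝ) ^ 2 + (p : ℝ) := by exact_mod_cast h
  have htR : (0 : ℝ) < 4 * (t : ℝ) - 1 := by
    have : (1 : ℝ) ≤ (t : ℝ) := by exact_mod_cast ht
    linarith
  have hpR : (0 : ℝ) < (p : ℝ) := by exact_mod_cast hp
  refine Matrix.PosDef.of_dotProduct_mulVec_pos ?_ ?_
  · ext i j
    fin_cases i <;> fin_cases j <;> simp [latA]
  · intro x hx
    by_contra hneg
    rw [not_lt] at hneg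
    apply hx
    obtain ⟨h1, h2, h3, h4⟩ := sos_zero (4 * (t : ℝ) - 1) (p : ℝ) (a : ℝ) (x 0) (x 1) (x 2) (x 3)
      _ htR hpR (by
        simp [dotProduct, mulVec, Fin.sum_univ_four, latA]
        linear_combination (4 * (x 2) ^ 2 + 4 * x 2 * x 3 + 4 * (t : ℝ) * (x 3) ^ 2) * hR) hneg
    ext i
    fin_cases i <;> simp [h1, h2, h3, h4]

theorem latB_posDef (t a m p : ℤ) (h : (4 * t - 1) * m = a ^ 2 + p) (ht : 0 < t) (hp : 0 < p) :
    ((latB t a m).map (Int.cast : ℤ → ℝ)).PosDef := by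
  have hR : (4 * (t : ℝ) - 1) * (m : ℝ) = (a : ℝ) ^ 2 + (p : ℝ) := by exact_mod_cast h
  have htR : (0 : ℝ) < 4 * (t : ℝ) - 1 := by
    have : (1 : ℝ) ≤ (t : ℝ) := by exact_mod_cast ht
    linarith
  have hpR : (0 : ℝ) < (p : ℝ) := by exact_mod_cast hp
  refine Matrix.PosDef.of_dotProduct_mulVec_pos ?_ ?_
  · ext i j
    fin_cases i <;> fin_cases j <;> simp [latB]
  · intro x hx
    by_contra hneg
    rw [not_lt] at hneg
    apply hx
    obtain ⟨h1, h2, h3, h4⟩ := sos_zero (4 * (t : ℝ) - 1) (p : ℝ) (a : ℝ) (x 3) (-(x 2)) (x 1)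
      (-(x 0)) _ htR hpR (by
        simp [dotProduct, mulVec, Fin.sum_univ_four, latB]
        linear_combination (4 * (x 1) ^ 2 - 4 * x 1 * x 0 + 4 * (t : ℝ) * (x 0) ^ 2) * hR) hneg
    have h2' : x 2 = 0 := by linarith
    have h4' : x 0 = 0 := by linarith
    ext i
    fin_cases i <;> simp [h1, h2', h3, h4']

/-- **(LAT)** For every odd prime `p` there are integral symmetric `4 × 4` matrices `A`, `B = A♯`
with even diagonals, `A * B = B * A = p`, `det A = det B = p ^ 2`, both positive definite. -/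
theorem lat_exists (p : ℕ) (hp : p.Prime) (hp2 : p ≠ 2) :
    ∃ A B : Matrix (Fin 4) (Fin 4) ℤ,
      A.IsSymm ∧ B.IsSymm ∧ (∀ i, Even (A i i)) ∧ (∀ i, Even (B i i)) ∧
      A * B = (p : ℤ) • (1 : Matrix (Fin 4) (Fin 4) ℤ) ∧
      B * A = (p : ℤ) • (1 : Matrix (Fin 4) (Fin 4) ℤ) ∧
      A.det = (p : ℤ) ^ 2 ∧ B.det = (p : ℤ) ^ 2 ∧
      (A.map (Int.cast : ℤ → ℝ)).PosDef ∧ (B.map (Int.cast : ℤ → ℝ)).PosDef := by
  obtain ⟨t, a, m, ht, h⟩ := exists_qam p hp hp2
  have hp0 : (0 : ℤ) < (p : ℤ) := by exact_mod_cast hp.pos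
  exact ⟨latA t a m, latB t a m, latA_isSymm t a m, latB_isSymm t a m, latA_even t a m,
    latB_even t a m, latA_mul_latB t a m p h, latB_mul_latA t a m p h, latA_det t a m p h,
    latB_det t a m p h, latA_posDef t a m p h ht hp0, latB_posDef t a m p h ht hp0⟩

end Fermat.Agent.S16
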